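import Mathlib

/-!
# S55, layer L, piece UR5 (helper124): abstract core

`R ⊆ S` discrete valuation rings with fraction fields `L ⊆ N`, `N / L` finite Galois, `S` the
integral closure of `R` in `N`, residue field of `R` finite with `q` elements.  If `N` is generated
over `L` by a primitive root of unity `ζ` of order `m = q ^ n - 1`, then `[N : L] = n` and a
uniformizer of `R` is a uniformizer of `S` (`N / L` is unramified of degree `n`).
-/

set_option autoImplicit false
set_option linter.deprecated false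
set_option linter.unusedSectionVars false
set_option linter.unusedVariables false

namespace Fermat.Agent.S55.Local.H124

open IsLocalRing Module Polynomial

section ResidueOrder

variable {S : Type} [CommRing S] [IsDomain S] [IsLocalRing S]

/-- If `m` is a unit of the local domain `S` and `ζ` is a primitive `m`-th root of unity, then
the image of `ζ` in the residue field has order `m`. -/
theorem orderOf_mk_of_isPrimitiveRoot {m : ℕ} (hm0 : 0 < m) {ζ : S} (hζ : IsPrimitiveRoot ζ m)
    (hm : (m : S) ∉ maximalIdeal S) :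
    orderOf (Ideal.Quotient.mk (maximalIdeal S) ζ) = m := by
  rw [orderOf_eq_iff hm0]
  refine ⟨by rw [← map_pow, hζ.pow_eq_one, map_one], fun k hk hk0 hk1 => hm ?_⟩
  obtain ⟨m', rfl⟩ : ∃ m', m = m' + 1 := ⟨m - 1, by omega⟩
  have hprod := hζ.prod_one_sub_pow_eq_order
  have hmem : (1 - ζ ^ k) ∈ maximalIdeal S := by
    rw [← Ideal.Quotient.eq_zero_iff_mem, map_sub, map_one, map_pow, hk1, sub_self]
  have hk' : k - 1 ∈ Finset.range m' := by
    rw [Finset.mem_range]; omega
  have hfac : (1 - ζ ^ (k - 1 + 1)) ∈ maximalIdeal S := by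
    rwa [Nat.sub_add_cancel hk0]
  have : (∏ j ∈ Finset.range m', (1 - ζ ^ (j + 1))) ∈ maximalIdeal S := by
    rw [← Finset.mul_prod_erase _ _ hk']
    exact Ideal.mul_mem_right _ _ hfac
  rw [hprod] at this
  simpa using this

end ResidueOrder

section Uniformizer

variable {S : Type} [CommRing S] [IsDomain S] [IsDiscreteValuationRing S]

/-- An element of `𝔪 \ 𝔪²` of a discrete valuation ring is irreducible. -/
theorem irreducible_of_mem_of_not_mem_sq {x : S} (hx : x ∈ maximalIdeal S)
    (hx2 : x ∉ maximalIdeal S ^ 2) : Irreducible x := by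
  obtain ⟨π, hπ⟩ := IsDiscreteValuationRing.exists_irreducible S
  have hx0 : x ≠ 0 := by
    rintro rfl
    exact hx2 (Ideal.zero_mem _)
  obtain ⟨k, hk⟩ := IsDiscreteValuationRing.associated_pow_irreducible hx0 hπ
  have hmax : maximalIdeal S = Ideal.span {π} :=
    (IsDiscreteValuationRing.irreducible_iff_uniformizer π).mp hπ
  rcases Nat.lt_or_ge k 2 with h | h
  · interval_cases k
    · -- `x` is a unit
      rw [pow_zero] at hk
      exact absurd hx (by
        rw [mem_maximalIdeal, mem_nonunits_iff, not_not]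
        exact hk.symm.isUnit isUnit_one)
    · rw [pow_one] at hk
      exact hk.symm.irreducible hπ
  · exfalso
    apply hx2
    obtain ⟨u, hu⟩ := hk.symm
    rw [hmax, Ideal.span_singleton_pow, Ideal.mem_span_singleton]
    rw [← hu]
    exact Dvd.dvd.mul_right (pow_dvd_pow π h) _

end Uniformizer

section Main

variable (R S L N : Type) [CommRing R] [IsDomain R] [IsDiscreteValuationRing R]
  [CommRing S] [IsDomain S] [IsDiscreteValuationRing S] [Algebra R S] [Module.Finite R S]
  [IsLocalHom (algebraMap R S)]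
  [Field L] [Field N] [Algebra R L] [IsFractionRing R L] [Algebra S N] [IsFractionRing S N]
  [Algebra L N] [Algebra R N] [IsScalarTower R S N] [IsScalarTower R L N]
  [IsIntegralClosure S R N] [FiniteDimensional L N]
  [Finite (R ⧸ maximalIdeal R)]

include R in
/-- The residue field of `S` is finite. -/
theorem finite_quotient_maximalIdeal : Finite (S ⧸ maximalIdeal S) := by
  haveI : Module.Finite (R ⧸ maximalIdeal R) (S ⧸ maximalIdeal S) :=
    Module.Finite.of_restrictScalars_finite R _ _
  exact Module.finite_of_finite (R ⧸ maximalIdeal R)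

/-- `q` lies in the maximal ideal of `S`. -/
theorem natCard_mem_maximalIdeal :
    ((Nat.card (R ⧸ maximalIdeal R) : ℕ) : S) ∈ maximalIdeal S := by
  have h1 : ((Nat.card (R ⧸ maximalIdeal R) : ℕ) : R ⧸ maximalIdeal R) = 0 := by
    haveI := Fintype.ofFinite (R ⧸ maximalIdeal R)
    rw [Nat.card_eq_fintype_card]
    exact Nat.cast_card_eq_zero _
  have h2 : ((Nat.card (R ⧸ maximalIdeal R) : ℕ) : R) ∈ maximalIdeal R := by
    rw [← Ideal.Quotient.eq_zero_iff_mem, map_natCast]
    exact h1
  have h3 := ((mem_maximalIdeal _).mp h2)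
  rw [mem_maximalIdeal, mem_nonunits_iff]
  intro hu
  apply h3
  have : algebraMap R S ((Nat.card (R ⧸ maximalIdeal R) : ℕ) : R) =
      ((Nat.card (R ⧸ maximalIdeal R) : ℕ) : S) := map_natCast _ _
  rw [← this] at hu
  exact isUnit_of_map_unit (algebraMap R S) _ hu

variable {n m : ℕ} (hn : 0 < n) (hm : m + 1 = Nat.card (R ⧸ maximalIdeal R) ^ n)

include R hn hm in
/-- `m = q ^ n - 1` is a unit of `S`. -/
theorem m_not_mem_maximalIdeal : (m : S) ∉ maximalIdeal S := by
  intro h
  have hq := natCard_mem_maximalIdeal R S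
  have h1 : ((m + 1 : ℕ) : S) ∈ maximalIdeal S := by
    rw [hm, Nat.cast_pow]
    exact Ideal.pow_mem_of_mem _ hq n hn
  have h2 : (1 : S) ∈ maximalIdeal S := by
    have := Ideal.sub_mem _ h1 h
    simpa using this
  exact (Ideal.ne_top_iff_one _).mp (maximalIdeal.isMaximal S).ne_top h2

include hn hm in
theorem one_lt_natCard : 1 < Nat.card (R ⧸ maximalIdeal R) := by
  haveI : Nontrivial (R ⧸ maximalIdeal R) := Ideal.Quotient.nontrivial_iff.mpr
    (maximalIdeal.isMaximal R).ne_top
  exact Finite.one_lt_card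

include hn hm in
theorem m_pos : 0 < m := by
  have h1 := one_lt_natCard R hn hm
  have h2 : Nat.card (R ⧸ maximalIdeal R) ≤ Nat.card (R ⧸ maximalIdeal R) ^ n :=
    Nat.le_self_pow hn.ne' _
  omega

variable {ζ : N} (hζ : IsPrimitiveRoot ζ m)

include R L hn hm hζ in
/-- The root of unity lifts to `S`. -/
theorem exists_lift_root : ∃ ζS : S, algebraMap S N ζS = ζ ∧ IsPrimitiveRoot ζS m := by
  have hint : IsIntegral R ζ :=
    ⟨X ^ m - 1, monic_X_pow_sub_C 1 (m_pos R hn hm).ne', by simp [hζ.pow_eq_one]⟩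
  obtain ⟨ζS, h⟩ := (IsIntegralClosure.isIntegral_iff (A := S)).mp hint
  refine ⟨ζS, h, ?_⟩
  have hζ' : IsPrimitiveRoot (algebraMap S N ζS) m := by rw [h]; exact hζ
  exact IsPrimitiveRoot.of_map_of_injective (f := algebraMap S N) hζ' (IsFractionRing.injective S N)

theorem pow_eq_pow_of_modEq {M : Type} [Monoid M] {x : M} {a b k : ℕ} (hx : orderOf x = k)
    (h : a ≡ b [MOD k]) : x ^ a = x ^ b := by
  rw [← pow_mod_orderOf x a, ← pow_mod_orderOf x b, hx]
  exact congrArg _ h

attribute [local instance] Ideal.Quotient.field in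
include L hn hm hζ in
/-- The residue degree is at least `n`. -/
theorem le_finrank_quotient : n ≤ finrank (R ⧸ maximalIdeal R) (S ⧸ maximalIdeal S) := by
  obtain ⟨ζS, hζS, hprim⟩ := exists_lift_root R S L N hn hm hζ
  have hord := orderOf_mk_of_isPrimitiveRoot (m_pos R hn hm) hprim
    (m_not_mem_maximalIdeal R S hn hm)
  haveI := finite_quotient_maximalIdeal R S
  haveI : Module.Finite (R ⧸ maximalIdeal R) (S ⧸ maximalIdeal S) :=
    Module.Finite.of_restrictScalars_finite R _ _
  have hcard : Nat.card (S ⧸ maximalIdeal S) = Nat.card (R ⧸ maximalIdeal R) ^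
      finrank (R ⧸ maximalIdeal R) (S ⧸ maximalIdeal S) := Module.natCard_eq_pow_finrank
  set f := finrank (R ⧸ maximalIdeal R) (S ⧸ maximalIdeal S) with hf
  set q := Nat.card (R ⧸ maximalIdeal R) with hq
  have hq1 : 1 < q := one_lt_natCard R hn hm
  have hfpos : 0 < f := Module.finrank_pos
  have hne : Ideal.Quotient.mk (maximalIdeal S) ζS ≠ 0 := by
    intro h0
    have h1 : (Ideal.Quotient.mk (maximalIdeal S) ζS) ^ m = 1 := by
      rw [← map_pow, hprim.pow_eq_one, map_one]
    rw [h0, zero_pow (m_pos R hn hm).ne'] at h1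
    exact zero_ne_one h1
  have hdvd : m ∣ q ^ f - 1 := by
    rw [← hord, ← hcard]
    apply orderOf_dvd_of_pow_eq_one
    haveI := Fintype.ofFinite (S ⧸ maximalIdeal S)
    rw [Nat.card_eq_fintype_card]
    exact FiniteField.pow_card_sub_one_eq_one _ hne
  by_contra hlt
  rw [not_le] at hlt
  have h1 : q ^ f < q ^ n := Nat.pow_lt_pow_right hq1 hlt
  have h2 : q ≤ q ^ f := Nat.le_self_pow hfpos.ne' _
  have h3 : 0 < q ^ f - 1 := by omega
  have h4 := Nat.le_of_dvd h3 hdvd
  omega

/-- A ring automorphism of a local ring preserves the maximal ideal. -/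
theorem map_maximalIdeal_eq (τ : S ≃ₐ[R] S) :
    maximalIdeal S = (maximalIdeal S).map τ := by
  have h : ((maximalIdeal S).map τ).IsMaximal :=
    Ideal.map_isMaximal_of_equiv (τ : S ≃+* S)
  exact (IsLocalRing.eq_maximalIdeal h).symm

attribute [local instance] Ideal.Quotient.field in
include S hn hm hζ in
/-- Every automorphism acts on `ζ` as a power of the `q`-Frobenius. -/
theorem exists_frob_pow (σ : N ≃ₐ[L] N) :
    ∃ k : ℕ, σ ζ = ζ ^ (Nat.card (R ⧸ maximalIdeal R) ^ k) := by
  obtain ⟨ζS, hζS, hprim⟩ := exists_lift_root R S L N hn hm hζ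
  have hm0 : 0 < m := m_pos R hn hm
  haveI : NeZero m := ⟨hm0.ne'⟩
  have hord := orderOf_mk_of_isPrimitiveRoot hm0 hprim (m_not_mem_maximalIdeal R S hn hm)
  haveI := finite_quotient_maximalIdeal R S
  haveI := Fintype.ofFinite (R ⧸ maximalIdeal R)
  set τ : S ≃ₐ[R] S := galRestrict R L N S σ with hτ
  set σbar : (S ⧸ maximalIdeal S) ≃ₐ[R ⧸ maximalIdeal R] (S ⧸ maximalIdeal S) :=
    Ideal.Quotient.algEquivOfEqMap (maximalIdeal R) τ (map_maximalIdeal_eq R S τ) with hσbar
  obtain ⟨k, hk⟩ := (FiniteField.bijective_frobeniusAlgEquivOfAlgebraic_pow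
    (R ⧸ maximalIdeal R) (S ⧸ maximalIdeal S)).2 σbar
  refine ⟨k.1, ?_⟩
  have h1 : σbar (Ideal.Quotient.mk (maximalIdeal S) ζS) =
      (Ideal.Quotient.mk (maximalIdeal S) ζS) ^ (Nat.card (R ⧸ maximalIdeal R) ^ k.1) := by
    rw [← hk]
    simp only [AlgEquiv.coe_pow, FiniteField.coe_frobeniusAlgEquivOfAlgebraic_iterate,
      Nat.card_eq_fintype_card]
  have h2 : σbar (Ideal.Quotient.mk (maximalIdeal S) ζS) =
      Ideal.Quotient.mk (maximalIdeal S) (τ ζS) := rfl
  have hτpow : (τ ζS) ^ m = 1 := by rw [← map_pow, hprim.pow_eq_one, map_one]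
  obtain ⟨a, ha, hapow⟩ := hprim.eq_pow_of_pow_eq_one hτpow
  rw [h2, ← hapow, map_pow] at h1
  -- compare exponents modulo `m`
  have hmkprim : IsPrimitiveRoot (Ideal.Quotient.mk (maximalIdeal S) ζS) m := by
    rw [← hord]
    exact IsPrimitiveRoot.orderOf _
  have h3 : (Ideal.Quotient.mk (maximalIdeal S) ζS) ^
      (Nat.card (R ⧸ maximalIdeal R) ^ k.1) = (Ideal.Quotient.mk (maximalIdeal S) ζS) ^
      (Nat.card (R ⧸ maximalIdeal R) ^ k.1 % m) := by
    conv_lhs => rw [← pow_mod_orderOf, hord]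
  rw [h3] at h1
  have h4 : a = Nat.card (R ⧸ maximalIdeal R) ^ k.1 % m :=
    hmkprim.pow_inj ha (Nat.mod_lt _ hm0) h1
  have h5 : τ ζS = ζS ^ (Nat.card (R ⧸ maximalIdeal R) ^ k.1) := by
    rw [← hapow, h4]
    conv_rhs => rw [← pow_mod_orderOf, ← hprim.eq_orderOf]
  have h6 := algebraMap_galRestrict_apply R σ ζS
  rw [← hτ, h5, map_pow, hζS] at h6
  exact h6.symm

include hn hm hζ in
theorem pow_card_pow_mod (k : ℕ) :
    ζ ^ (Nat.card (R ⧸ maximalIdeal R) ^ k) = ζ ^ (Nat.card (R ⧸ maximalIdeal R) ^ (k % n)) := by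
  have hqn : Nat.card (R ⧸ maximalIdeal R) ^ n ≡ 1 [MOD m] := by
    show Nat.card (R ⧸ maximalIdeal R) ^ n % m = 1 % m
    rw [← hm, Nat.add_mod_left]
  apply pow_eq_pow_of_modEq hζ.eq_orderOf.symm
  conv_lhs => rw [← Nat.div_add_mod k n, pow_add, pow_mul]
  have := (hqn.pow (k / n)).mul_right (Nat.card (R ⧸ maximalIdeal R) ^ (k % n))
  simpa using this

include S hn hm hζ in
/-- If `ζ` generates `N / L`, then `[N : L] ≤ n`. -/
theorem natCard_gal_le (hgen : ∀ σ τ : N ≃ₐ[L] N, σ ζ = τ ζ → σ = τ) :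
    Nat.card (N ≃ₐ[L] N) ≤ n := by
  classical
  choose k hk using exists_frob_pow R S L N hn hm hζ
  let f : (N ≃ₐ[L] N) → Fin n := fun σ => ⟨k σ % n, Nat.mod_lt _ hn⟩
  have hf : Function.Injective f := by
    intro σ τ h
    apply hgen
    have h' : k σ % n = k τ % n := congrArg Fin.val h
    rw [hk σ, hk τ, pow_card_pow_mod R N hn hm hζ (k σ), pow_card_pow_mod R N hn hm hζ (k τ), h']
  have := Nat.card_le_card_of_injective f hf
  simpa using this

attribute [local instance] Ideal.Quotient.field in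
include S hn hm hζ in
/-- **Degree and ramification.** If `ζ` generates the Galois extension `N / L` then `[N : L] = n`
and the ramification index is `1`. -/
theorem finrank_eq_and_ramificationIdx_eq_one [IsGalois L N]
    (hgen : ∀ σ τ : N ≃ₐ[L] N, σ ζ = τ ζ → σ = τ) :
    finrank L N = n ∧ Ideal.ramificationIdx' (maximalIdeal R) (maximalIdeal S) = 1 := by
  have hp0 : maximalIdeal R ≠ ⊥ := IsDiscreteValuationRing.not_a_field R
  have hef := Ideal.ramificationIdx_mul_inertiaDeg_of_isLocalRing S L N hp0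
  rw [Ideal.inertiaDeg'_algebraMap] at hef
  have hd : finrank L N ≤ n := by
    rw [← IsGalois.card_aut_eq_finrank]
    exact natCard_gal_le R S L N hn hm hζ hgen
  have hf := le_finrank_quotient R S L N hn hm hζ
  have hdpos : 0 < finrank L N := Module.finrank_pos
  set e := Ideal.ramificationIdx' (maximalIdeal R) (maximalIdeal S) with he
  set f := finrank (R ⧸ maximalIdeal R) (S ⧸ maximalIdeal S) with hf'
  have hfpos : 0 < f := by omega
  have he1 : e = 1 := by
    have h1 : e * f ≤ f := by omega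
    have h2 : e ≤ 1 := by
      by_contra h
      rw [not_le] at h
      have : 2 * f ≤ e * f := Nat.mul_le_mul_right f h
      omega
    have h3 : e ≠ 0 := by
      rintro h
      rw [h, zero_mul] at hef
      omega
    omega
  rw [he1, one_mul] at hef
  exact ⟨by omega, he1⟩

/-- If the ramification index is `1`, a uniformizer of `R` is a uniformizer of `S`. -/
theorem irreducible_algebraMap_of_ramificationIdx_eq_one
    (he : Ideal.ramificationIdx' (maximalIdeal R) (maximalIdeal S) = 1) {ϖ : R}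
    (hϖ : Irreducible ϖ) : Irreducible (algebraMap R S ϖ) := by
  have hmax : maximalIdeal R = Ideal.span {ϖ} :=
    (IsDiscreteValuationRing.irreducible_iff_uniformizer ϖ).mp hϖ
  have hmem : algebraMap R S ϖ ∈ maximalIdeal S := by
    rw [mem_maximalIdeal, mem_nonunits_iff]
    intro hu
    exact hϖ.not_isUnit (isUnit_of_map_unit (algebraMap R S) ϖ hu)
  have hle : (maximalIdeal R).map (algebraMap R S) ≤ maximalIdeal S := by
    rw [hmax, Ideal.map_span, Set.image_singleton, Ideal.span_singleton_le_iff_mem]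
    exact hmem
  refine irreducible_of_mem_of_not_mem_sq hmem fun h2 => ?_
  have := (Ideal.ramificationIdx'_ne_one_iff hle).mpr (by
    rw [hmax, Ideal.map_span, Set.image_singleton, Ideal.span_singleton_le_iff_mem]
    exact h2)
  exact this he

include R in
/-- If a uniformizer of `R` stays a uniformizer in `S`, every nonzero element of `N` is the
product of an element of `Lˣ` and a unit of `S`. -/
theorem exists_eq_mul_unit_of_irreducible {ϖ : R} (hϖ : Irreducible (algebraMap R S ϖ))
    {y : N} (hy : y ≠ 0) :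
    ∃ (z : Lˣ) (u : Sˣ), y = algebraMap L N z * algebraMap S N u := by
  have hϖL : algebraMap R L ϖ ≠ 0 := by
    intro h
    have h0 : ϖ = 0 := (IsFractionRing.injective R L) (by rw [h, map_zero])
    rw [h0, map_zero] at hϖ
    exact not_irreducible_zero hϖ
  obtain ⟨a, b, hb, rfl⟩ := IsFractionRing.div_surjective S y
  have hb0 : b ≠ 0 := nonZeroDivisors.ne_zero hb
  have ha0 : a ≠ 0 := by
    rintro rfl
    simp at hy
  obtain ⟨i, u, hu⟩ := IsDiscreteValuationRing.eq_unit_mul_pow_irreducible ha0 hϖ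
  obtain ⟨j, v, hv⟩ := IsDiscreteValuationRing.eq_unit_mul_pow_irreducible hb0 hϖ
  refine ⟨(Units.mk0 _ hϖL) ^ ((i : ℤ) - j), u * v⁻¹, ?_⟩
  have hx : algebraMap S N (algebraMap R S ϖ) = algebraMap L N (algebraMap R L ϖ) := by
    rw [← IsScalarTower.algebraMap_apply, ← IsScalarTower.algebraMap_apply]
  have hxN : algebraMap L N (algebraMap R L ϖ) ≠ 0 := by
    rw [Ne, map_eq_zero]
    exact hϖL
  have hvN : algebraMap S N (v : S) ≠ 0 := by
    rw [Ne, map_eq_zero_iff _ (IsFractionRing.injective S N)]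
    exact v.ne_zero
  rw [hu, hv, map_mul, map_mul, map_pow, map_pow, hx, Units.val_zpow_eq_zpow_val, Units.val_mk0,
    map_zpow₀, zpow_sub₀ hxN, zpow_natCast, zpow_natCast, Units.val_mul, map_mul]
  have hvinv : algebraMap S N ((v⁻¹ : Sˣ) : S) = (algebraMap S N (v : S))⁻¹ := by
    apply eq_inv_of_mul_eq_one_left
    rw [← map_mul, Units.inv_mul, map_one]
  rw [hvinv]
  field_simp

end Main

end Fermat.Agent.S55.Local.H124
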