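import Fermat.Agent.S55.Local.Spec

/-!
# S55, layer L : (T1a) `H¹(Gal(L/K), U_L) = 0` for `L / K` unramified — DIRECT proof

No filtration argument is needed: by Hilbert 90 (Mathlib) the cocycle is `g ↦ g • m / m` for some
`m : Lˣ`; since `L / K` is unramified, `m = y · u` with `y ∈ Kˣ` and `u ∈ U_L`, and `y` is fixed by
the Galois group, so `g • m / m = g • u / u`.
-/

set_option autoImplicit false

namespace Fermat.Agent.S55.Local.H124

open groupCohomology

/-- Elements of `Kˣ` are fixed by `Gal(L/K)`. -/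
theorem smul_unitsIncl {K L : Type} [Field K] [Field L] [Algebra K L]
    (g : L ≃ₐ[K] L) (y : Kˣ) : g • unitsIncl L K y = unitsIncl L K y := by
  apply Units.ext
  rw [AlgEquiv.smul_units_def]
  simp

/-- **(T1a)** `H¹(Gal(L/K), U_L) = 0` for `L / K` unramified. -/
theorem unramUnitsH1 : UnramUnitsH1Statement := by
  intro A F _ _ _ _ _ _ _ _ _ K _ _ _ L _ _ _ _ _ _ hunr c hc _
  obtain ⟨m, hm⟩ := isMulCoboundary₁_of_isMulCocycle₁_of_aut_to_units c hc
  obtain ⟨y, hy⟩ := hunr m
  refine ⟨m * (unitsIncl L K y)⁻¹, hy, fun g => ?_⟩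
  rw [← hm g, smul_mul', smul_inv', smul_unitsIncl, mul_div_mul_right_eq_div]

end Fermat.Agent.S55.Local.H124
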