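import Fermat.Agent.S55.Local.Spec

/-!
# S55, layer L : (T1b) `H²(Gal(L/K), U_L) = 0` for `L / K` unramified — via the cyclic case

Alternative glue, avoiding the filtration argument (pieces A2, UR3, FF1b, FF2 are NOT needed):
`Gal(L/K)` is cyclic (UR1), every 2-cocycle with values in `U_L` is cohomologous to a standard
cocycle `cycCocycle σ x` with `x ∈ U_L^G = U_K` (A4c applied to the `G`-module `U_L`), `x` is the
norm of a unit (UR4), hence the standard cocycle is a coboundary in `U_L` (A4b).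
-/

set_option autoImplicit false

namespace Fermat.Agent.S55.Local.H124

open groupCohomology

section Integrality

variable (A F : Type) [CommRing A] [Field F] [Algebra A F]
variable (K : Type) [Field K] [Algebra F K]
variable (L : Type) [Field L] [Algebra F L] [Algebra K L] [IsScalarTower F K L]

/-- `toL` for `L` factors through `K`. -/
theorem toL_eq_comp : toL A F L = (algebraMap K L).comp (toL A F K) := by
  ext a
  simp only [toL_apply, RingHom.comp_apply]
  exact IsScalarTower.algebraMap_apply F K L _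

/-- A `K`-algebra endomorphism of `L` preserves integrality over `A`. -/
theorem isInt_algHom (g : L →ₐ[K] L) {x : L} (hx : IsInt A F L x) : IsInt A F L (g x) := by
  obtain ⟨p, hp, hpx⟩ := hx
  refine ⟨p, hp, ?_⟩
  have h1 : (g : L →+* L).comp (toL A F L) = toL A F L := by
    ext a
    rw [toL_eq_comp A F K L]
    simp
  have := Polynomial.hom_eval₂ p (toL A F L) (g : L →+* L) x
  rw [h1, hpx, map_zero] at this
  exact this.symm

/-- Integrality descends along `K → L`. -/
theorem isInt_of_isInt_algebraMap {y : K} (hy : IsInt A F L (algebraMap K L y)) :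
    IsInt A F K y := by
  obtain ⟨p, hp, hpx⟩ := hy
  refine ⟨p, hp, ?_⟩
  have := Polynomial.hom_eval₂ p (toL A F K) (algebraMap K L) y
  rw [← toL_eq_comp A F K L, hpx] at this
  exact (map_eq_zero_iff _ (algebraMap K L).injective).mp this

/-- Integrality ascends along `K → L`. -/
theorem isInt_algebraMap_of_isInt {y : K} (hy : IsInt A F K y) :
    IsInt A F L (algebraMap K L y) := by
  obtain ⟨p, hp, hpx⟩ := hy
  refine ⟨p, hp, ?_⟩
  have := Polynomial.hom_eval₂ p (toL A F K) (algebraMap K L) y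
  rw [← toL_eq_comp A F K L, hpx, map_zero] at this
  exact this.symm

/-- `Gal(L/K)` preserves `U_L`. -/
theorem smul_mem_intUnits (g : L ≃ₐ[K] L) {u : Lˣ} (hu : u ∈ intUnits A F L) :
    g • u ∈ intUnits A F L := by
  refine ⟨?_, ?_⟩
  · have := isInt_algHom A F K L (g : L →ₐ[K] L) hu.1
    simpa [AlgEquiv.smul_units_def] using this
  · have := isInt_algHom A F K L (g : L →ₐ[K] L) hu.2
    rw [← smul_inv']
    simpa [AlgEquiv.smul_units_def] using this

/-- The action of `Gal(L/K)` on `U_L`. -/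
noncomputable def intUnitsAction : MulDistribMulAction (L ≃ₐ[K] L) (intUnits A F L) where
  smul g u := ⟨g • (u : Lˣ), smul_mem_intUnits A F K L g u.2⟩
  one_smul u := Subtype.ext (one_smul _ _)
  mul_smul g h u := Subtype.ext (mul_smul _ _ _)
  smul_mul g u v := Subtype.ext (smul_mul' _ _ _)
  smul_one g := Subtype.ext (smul_one _)

end Integrality

/-- Coboundaries are closed under multiplication. -/
theorem isMulCoboundary₂_mul {G M : Type} [Group G] [CommGroup M] [MulDistribMulAction G M]
    {a b : G × G → M} (ha : IsMulCoboundary₂ a) (hb : IsMulCoboundary₂ b) :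
    IsMulCoboundary₂ (fun p => a p * b p) := by
  obtain ⟨x, hx⟩ := ha
  obtain ⟨y, hy⟩ := hb
  refine ⟨fun g => x g * y g, fun g h => ?_⟩
  show g • (x h * y h) / (x (g * h) * y (g * h)) * (x g * y g) = a (g, h) * b (g, h)
  rw [← hx g h, ← hy g h, smul_mul']
  simp only [div_eq_mul_inv, mul_inv_rev]
  ac_rfl

/-- **(T1b), alternative glue.** `H²(Gal(L/K), U_L) = 0` for `L / K` unramified, from the cyclic
pieces UR1, UR4, A4b, A4c. -/
theorem unramUnitsH2_of (h1 : UnramCyclicStatement) (h4 : UnramNormUnitsStatement)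
    (hb : CycCocycleCoboundaryIffStatement) (hc : CycCocycleSurjStatement) :
    UnramUnitsH2Statement := by
  intro A F _ _ _ _ _ _ _ _ _ K _ _ _ L _ _ _ _ _ _ hunr c hcoc hcU
  classical
  letI : MulDistribMulAction (L ≃ₐ[K] L) (intUnits A F L) := intUnitsAction A F K L
  have hsmul : ∀ (g : L ≃ₐ[K] L) (u : intUnits A F L), ((g • u : intUnits A F L) : Lˣ) =
      g • (u : Lˣ) := fun _ _ => rfl
  haveI : IsCyclic (L ≃ₐ[K] L) := h1 A F K L hunr
  obtain ⟨σ, hσ⟩ := IsCyclic.exists_generator (α := L ≃ₐ[K] L)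
  -- the cocycle with values in `U_L`
  set c' : (L ≃ₐ[K] L) × (L ≃ₐ[K] L) → intUnits A F L := fun p => ⟨c p, hcU p⟩ with hc'
  have hc'coc : IsMulCocycle₂ c' := fun g h j => Subtype.ext (hcoc g h j)
  obtain ⟨x, hσx, hcob1⟩ := hc (L ≃ₐ[K] L) (intUnits A F L) σ hσ c' hc'coc
  -- `x` is fixed by the whole group
  have hσx' : σ • (x : Lˣ) = x := by
    rw [← hsmul, hσx]
  have hfix : ∀ g : L ≃ₐ[K] L, g • (x : Lˣ) = x := by
    intro g
    have h2 : Subgroup.zpowers σ ≤ MulAction.stabilizer (L ≃ₐ[K] L) (x : Lˣ) := by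
      rw [Subgroup.zpowers_le]
      exact hσx'
    exact h2 (hσ g)
  have hfixL : ∀ g : L ≃ₐ[K] L, g ((x : Lˣ) : L) = ((x : Lˣ) : L) := by
    intro g
    have := congrArg (fun u : Lˣ => (u : L)) (hfix g)
    simpa [AlgEquiv.smul_units_def] using this
  obtain ⟨y₀, hy₀⟩ := (IsGalois.mem_range_algebraMap_iff_fixed (F := K) (E := L) _).mpr hfixL
  have hy₀ne : y₀ ≠ 0 := by
    rintro rfl
    rw [map_zero] at hy₀
    exact (Units.ne_zero (x : Lˣ)) hy₀.symm
  set yK : Kˣ := Units.mk0 y₀ hy₀ne with hyK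
  have hyKx : unitsIncl L K yK = (x : Lˣ) := by
    apply Units.ext
    rw [unitsIncl_coe]
    exact hy₀
  have hyKint : yK ∈ intUnits A F K := by
    refine ⟨?_, ?_⟩
    · apply isInt_of_isInt_algebraMap A F K L
      show IsInt A F L (algebraMap K L y₀)
      rw [hy₀]
      exact x.2.1
    · apply isInt_of_isInt_algebraMap A F K L
      have : algebraMap K L ((yK⁻¹ : Kˣ) : K) = (((x : Lˣ)⁻¹ : Lˣ) : L) := by
        rw [← hyKx, ← map_inv, unitsIncl_coe]
      rw [this]
      exact x.2.2
  obtain ⟨w, hw, hwN⟩ := h4 A F K L hunr yK hyKint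
  -- `x` is the norm of `w`
  have hprod : ∏ g : L ≃ₐ[K] L, g • (⟨w, hw⟩ : intUnits A F L) = x := by
    apply Subtype.ext
    apply Units.ext
    have e1 : (((∏ g : L ≃ₐ[K] L, g • (⟨w, hw⟩ : intUnits A F L) : intUnits A F L) : Lˣ) : L) =
        ∏ g : L ≃ₐ[K] L, g (w : L) := by
      rw [← Subgroup.coe_subtype, map_prod, ← Units.coeHom_apply, map_prod]
      refine Finset.prod_congr rfl fun g _ => ?_
      rw [Units.coeHom_apply, Subgroup.coe_subtype, hsmul, AlgEquiv.smul_units_def]
      rfl
    rw [e1, ← Algebra.norm_eq_prod_automorphisms, ← hy₀]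
    have := congrArg (fun u : Kˣ => (u : K)) hwN
    simp only [normUnits_coe] at this
    rw [this]
    rfl
  have hcob2 : IsMulCoboundary₂ (cycCocycle σ x) :=
    (hb (L ≃ₐ[K] L) (intUnits A F L) σ hσ x hσx).mpr ⟨⟨w, hw⟩, hprod⟩
  have hcob : IsMulCoboundary₂ c' := by
    have := isMulCoboundary₂_mul hcob1 hcob2
    have e : (fun p => c' p / cycCocycle σ x p * cycCocycle σ x p) = c' := by
      funext p
      exact div_mul_cancel _ _
    rwa [e] at this
  obtain ⟨z, hz⟩ := hcob
  refine ⟨fun g => (z g : Lˣ), fun g => (z g).2, fun g h => ?_⟩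
  have := congrArg (fun u : intUnits A F L => (u : Lˣ)) (hz g h)
  simpa [hsmul] using this

end Fermat.Agent.S55.Local.H124
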