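import Fermat.Agent.S55.Local.Spec
import Fermat.Agent.S55.Local.H715.Integers
import Fermat.Agent.S55.Local.H124.CycCore

/-!
# S55, layer L, piece UR5 (helper124): existence of unramified extensions

`existsUnramExt : ExistsUnramExtStatement`: for `L / K` finite Galois and `n ≥ 1` the field
`N = L(ζ_m)`, `m = q ^ n - 1`, `q = #k_L`, is Galois over `K`, and `N / L` is unramified of
degree `n`.
-/

set_option autoImplicit false
set_option linter.deprecated false
set_option linter.unusedSectionVars false
set_option linter.unusedVariables false
set_option linter.style.haveILetI false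

namespace Fermat.Agent.S55.Local.H124

open IsLocalRing Module Polynomial

section Galois

variable (K L N : Type) [Field K] [Field L] [Field N] [Algebra K L] [Algebra L N] [Algebra K N]
  [IsScalarTower K L N] [FiniteDimensional K L] [IsGalois K L]

/-- A cyclotomic extension of a finite Galois extension of `K` is normal over `K`. -/
theorem normal_of_cyclotomic (m : ℕ) [NeZero m] [IsCyclotomicExtension {m} L N] :
    Normal K N := by
  obtain ⟨p, hp⟩ := Normal.exists_isSplittingField K L
  obtain ⟨p', hp'0, hp'⟩ : ∃ p' : K[X], p' ≠ 0 ∧ IsSplittingField K L p' := by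
    by_cases h0 : p = 0
    · subst h0
      refine ⟨1, one_ne_zero, ⟨?_, ?_⟩⟩
      · rw [Polynomial.map_one]
        exact Splits.one
      · have := hp.adjoin_rootSet'
        simpa using this
    · exact ⟨p, h0, hp⟩
  haveI := hp'
  haveI : IsSplittingField L N ((X ^ m - 1 : K[X]).map (algebraMap K L)) := by
    have := IsCyclotomicExtension.isSplittingField_X_pow_sub_one m L N
    simpa using this
  have hX : (X ^ m - 1 : K[X]) ≠ 0 := X_pow_sub_C_ne_zero (NeZero.pos m) 1
  haveI := IsSplittingField.mul (F := K) (K := L) (L := N) p' (X ^ m - 1) hp'0 hX
  exact Normal.of_isSplittingField (p' * (X ^ m - 1))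

end Galois

section Bridge

variable (A F L N : Type) [CommRing A] [Field F] [Algebra A F] [Field L] [Algebra F L]
  [Field N] [Algebra F N] [Algebra L N] [IsScalarTower F L N]
  [Algebra A L] [IsScalarTower A F L]

/-- Elements of `N` integral over the ring of integers of `L` are integral over `A`. -/
theorem isInt_of_isIntegral_integralClosure {x : N}
    (hx : IsIntegral (integralClosure A L) x) : IsInt A F N x := by
  letI : Algebra A N := H715.algAL A F N
  haveI : IsScalarTower A F N := H715.isScalarTower_algAL A F N
  haveI : IsScalarTower A (integralClosure A L) N := IsScalarTower.of_algebraMap_eq (fun a => by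
    rw [IsScalarTower.algebraMap_apply (integralClosure A L) L N,
      ← IsScalarTower.algebraMap_apply A (integralClosure A L) L,
      IsScalarTower.algebraMap_apply A F N, IsScalarTower.algebraMap_apply F L N,
      ← IsScalarTower.algebraMap_apply A F L])
  rw [H715.isInt_iff]
  exact isIntegral_trans x hx

end Bridge

/-- **(UR5)** existence of unramified extensions of any degree on top of a Galois extension. -/
theorem existsUnramExt : ExistsUnramExtStatement := by
  intro A F _ _ _ _ _ _ _ _ _ K _ _ _ L _ _ _ _ _ _ n hn
  classical
  letI : Algebra A L := H715.algAL A F L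
  haveI : IsScalarTower A F L := H715.isScalarTower_algAL A F L
  haveI : FiniteDimensional F L := FiniteDimensional.trans F K L
  haveI : CharZero K := charZero_of_injective_algebraMap (algebraMap F K).injective
  haveI : CharZero L := charZero_of_injective_algebraMap (algebraMap F L).injective
  haveI : IsLocalRing (integralClosure A L) := H715.isLocalRing_OL A F L
  haveI : IsDiscreteValuationRing (integralClosure A L) :=
    H715.isDiscreteValuationRing_OL A F L
  haveI : IsAdicComplete (maximalIdeal (integralClosure A L)) (integralClosure A L) :=
    H715.isAdicComplete_OL A F L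
  haveI : Finite (ResidueField (integralClosure A L)) := H715.finite_residueField_OL A F L
  haveI : Finite ((integralClosure A L) ⧸ maximalIdeal (integralClosure A L)) :=
    H715.finite_residueField_OL A F L
  haveI : IsFractionRing (integralClosure A L) L := H715.isFractionRing_OL A F L
  -- the numbers `q`, `m`
  have hq1 : 1 < Nat.card ((integralClosure A L) ⧸ maximalIdeal (integralClosure A L)) := by
    haveI : Nontrivial ((integralClosure A L) ⧸ maximalIdeal (integralClosure A L)) :=
      Ideal.Quotient.nontrivial_iff.mpr (maximalIdeal.isMaximal _).ne_top
    exact Finite.one_lt_card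
  obtain ⟨m, hm⟩ : ∃ m, m + 1 =
      Nat.card ((integralClosure A L) ⧸ maximalIdeal (integralClosure A L)) ^ n := by
    refine ⟨Nat.card ((integralClosure A L) ⧸ maximalIdeal (integralClosure A L)) ^ n - 1, ?_⟩
    have : 0 < Nat.card ((integralClosure A L) ⧸ maximalIdeal (integralClosure A L)) ^ n :=
      Nat.pow_pos (by omega)
    omega
  have hm0 : 0 < m := m_pos (integralClosure A L) hn hm
  haveI : NeZero m := ⟨hm0.ne'⟩
  -- the field `N`
  haveI tKLN : IsScalarTower K L (CyclotomicField m L) := inferInstance
  haveI tFLN : IsScalarTower F L (CyclotomicField m L) := inferInstance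
  haveI tFKN : IsScalarTower F K (CyclotomicField m L) :=
    IsScalarTower.of_algebraMap_eq (fun x => by
      rw [IsScalarTower.algebraMap_apply F L (CyclotomicField m L),
        IsScalarTower.algebraMap_apply K L (CyclotomicField m L),
        ← IsScalarTower.algebraMap_apply F K L])
  haveI : FiniteDimensional L (CyclotomicField m L) :=
    IsCyclotomicExtension.finiteDimensional {m} L (CyclotomicField m L)
  haveI : IsGalois L (CyclotomicField m L) :=
    IsCyclotomicExtension.isGalois {m} L (CyclotomicField m L)
  haveI fdKN : FiniteDimensional K (CyclotomicField m L) :=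
    FiniteDimensional.trans K L (CyclotomicField m L)
  haveI : Normal K (CyclotomicField m L) := normal_of_cyclotomic K L (CyclotomicField m L) m
  haveI galKN : IsGalois K (CyclotomicField m L) := ⟨⟩
  refine ⟨CyclotomicField m L, inferInstance, inferInstance, inferInstance, inferInstance,
    tFKN, tFLN, tKLN, fdKN, galKN, ?_⟩
  -- the ring of integers of `N`
  haveI : IsScalarTower (integralClosure A L) L (CyclotomicField m L) := inferInstance
  haveI : IsLocalRing (integralClosure (integralClosure A L) (CyclotomicField m L)) :=
    H715.isLocalRing_OL (integralClosure A L) L (CyclotomicField m L)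
  haveI : IsDiscreteValuationRing
      (integralClosure (integralClosure A L) (CyclotomicField m L)) :=
    H715.isDiscreteValuationRing_OL (integralClosure A L) L (CyclotomicField m L)
  haveI : Module.Finite (integralClosure A L)
      (integralClosure (integralClosure A L) (CyclotomicField m L)) :=
    H715.finite_OL (integralClosure A L) L (CyclotomicField m L)
  haveI : IsFractionRing (integralClosure (integralClosure A L) (CyclotomicField m L))
      (CyclotomicField m L) :=
    H715.isFractionRing_OL (integralClosure A L) L (CyclotomicField m L)
  haveI : IsLocalHom (algebraMap (integralClosure A L)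
      (integralClosure (integralClosure A L) (CyclotomicField m L))) :=
    H715.isLocalHom_OL (integralClosure A L) L (CyclotomicField m L)
  have hζ : IsPrimitiveRoot (IsCyclotomicExtension.zeta m L (CyclotomicField m L)) m :=
    IsCyclotomicExtension.zeta_spec m L (CyclotomicField m L)
  have hgen : ∀ σ τ : (CyclotomicField m L) ≃ₐ[L] (CyclotomicField m L),
      σ (IsCyclotomicExtension.zeta m L (CyclotomicField m L)) =
        τ (IsCyclotomicExtension.zeta m L (CyclotomicField m L)) → σ = τ := by
    intro σ τ h
    have : σ.toAlgHom = τ.toAlgHom := by
      apply (hζ.powerBasis L).algHom_ext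
      rw [IsPrimitiveRoot.powerBasis_gen]
      exact h
    exact AlgEquiv.coe_toAlgHom_injective this
  obtain ⟨hfin, he⟩ := finrank_eq_and_ramificationIdx_eq_one (integralClosure A L)
    (integralClosure (integralClosure A L) (CyclotomicField m L)) L (CyclotomicField m L)
    hn hm hζ hgen
  refine ⟨?_, hfin⟩
  -- unramified
  intro x
  obtain ⟨ϖ, hϖ⟩ := IsDiscreteValuationRing.exists_irreducible (integralClosure A L)
  have hirr := irreducible_algebraMap_of_ramificationIdx_eq_one (integralClosure A L)
    (integralClosure (integralClosure A L) (CyclotomicField m L)) he hϖ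
  obtain ⟨z, u, hzu⟩ := exists_eq_mul_unit_of_irreducible (integralClosure A L)
    (integralClosure (integralClosure A L) (CyclotomicField m L)) L (CyclotomicField m L)
    hirr x.ne_zero
  refine ⟨z, ?_⟩
  have hval : ((x * (unitsIncl (CyclotomicField m L) L z)⁻¹ : (CyclotomicField m L)ˣ) :
      CyclotomicField m L) = algebraMap _ (CyclotomicField m L) (u : integralClosure
        (integralClosure A L) (CyclotomicField m L)) := by
    rw [Units.val_mul, hzu, Units.val_inv_eq_inv_val, unitsIncl_coe]
    field_simp
  have hvalinv : (((x * (unitsIncl (CyclotomicField m L) L z)⁻¹)⁻¹ :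
      (CyclotomicField m L)ˣ) : CyclotomicField m L) =
      algebraMap _ (CyclotomicField m L) ((u⁻¹ : (integralClosure
        (integralClosure A L) (CyclotomicField m L))ˣ) : integralClosure
        (integralClosure A L) (CyclotomicField m L)) := by
    rw [Units.val_inv_eq_inv_val, hval]
    apply inv_eq_of_mul_eq_one_left
    rw [← map_mul, Units.inv_mul, map_one]
  have key : ∀ s : integralClosure (integralClosure A L) (CyclotomicField m L),
      IsInt A F (CyclotomicField m L) (algebraMap _ (CyclotomicField m L) s) := fun s =>
    isInt_of_isIntegral_integralClosure A F L (CyclotomicField m L) s.2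
  refine ⟨?_, ?_⟩
  · rw [hval]
    exact key _
  · rw [hvalinv]
    exact key _

end Fermat.Agent.S55.Local.H124
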